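import Fermat.Agent.S05.C3cFinal

/-!
# Node at the origin, any residue characteristic (S13, piece T2(b))

`W : y² + a₁xy = x³ + a₂x² + a₄x` (`a₃ = a₆ = 0`) over a valued field `(K, v)` with `v`-integral
coefficients, `0 < v a₄ < 1`, `v b₂ = 1`, `2 ≠ 0` in `K` (no assumption on `v 2`).
For `P = (x, y)` with `n • P = 0`, `n` odd, `v n = 1`, `v x < 1` we show
`v a₄ < v x` and `v x ^ n = v a₄ ^ (2 * j)` for some `j : ℕ`.
-/

set_option autoImplicit false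
set_option linter.unusedSectionVars false

namespace Fermat.Agent.S13.H845

open WeierstrassCurve WeierstrassCurve.Affine
open Fermat.Agent.S05 Fermat.Agent.S05.XId Fermat.Agent.S05.C3c

variable {K : Type*} [Field K] {Γ₀ : Type*} [LinearOrderedCommGroupWithZero Γ₀]

/-- The data of a node at the origin. -/
structure NodeZero (W : Affine K) (v : Valuation K Γ₀) : Prop where
  h20 : (2 : K) ≠ 0
  ha3 : W.a₃ = 0
  ha6 : W.a₆ = 0
  ha4 : W.a₄ ≠ 0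
  hv4 : v W.a₄ < 1
  hb2 : v W.b₂ = 1

namespace NodeZero

variable {W : Affine K} {v : Valuation K Γ₀} (N : NodeZero W v)
include N

lemma four_ne_zero : (4 : K) ≠ 0 := by
  have h := N.h20
  have : (4 : K) = 2 * 2 := by norm_num
  rw [this]
  exact mul_ne_zero h h

lemma b₂_ne_zero : W.b₂ ≠ 0 := by
  intro h
  have := N.hb2
  rw [h, map_zero] at this
  exact zero_ne_one this

lemma prodNum_eq (x₁ x₂ : K) : prodNum W x₁ x₂ = (x₁ * x₂ - W.a₄) ^ 2 := by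
  simp only [prodNum, WeierstrassCurve.b₄, WeierstrassCurve.b₆, WeierstrassCurve.b₈, N.ha3,
    N.ha6]
  ring

lemma dblNum_eq (x : K) : dblNum W x = (x ^ 2 - W.a₄) ^ 2 := by
  simp only [dblNum, WeierstrassCurve.b₄, WeierstrassCurve.b₆, WeierstrassCurve.b₈, N.ha3,
    N.ha6]
  ring

lemma dblDen_eq (x : K) : dblDen W x = x * (4 * x ^ 2 + W.b₂ * x + 4 * W.a₄) := by
  simp only [dblDen, WeierstrassCurve.b₂, WeierstrassCurve.b₄, WeierstrassCurve.b₆, N.ha3,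
    N.ha6]
  ring

lemma delta_eq (x₁ x₂ : K) :
    sumNum W x₁ x₂ ^ 2 - 4 * (x₁ - x₂) ^ 2 * prodNum W x₁ x₂ = dblDen W x₁ * dblDen W x₂ := by
  simp only [prodNum, sumNum, dblDen, WeierstrassCurve.b₂, WeierstrassCurve.b₄,
    WeierstrassCurve.b₆, WeierstrassCurve.b₈, N.ha3, N.ha6]
  ring

end NodeZero

section torsion

variable [DecidableEq K] {W : Affine K} {v : Valuation K Γ₀}

/-- **Class C** at a node at the origin, any residue characteristic. -/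
theorem classC (hW : SameRed.IntegralCoeffs W v) (N : NodeZero W v) {n : ℕ}
    (hn : Odd n) (hvn : v (n : K) = 1) {x y : K} (h : W.Nonsingular x y)
    (hQ : n • Point.some x y h = 0) :
    x ≠ 0 ∧ L v W.a₄ ≤ L v x ∧ L v x ≤ 0 ∧ dblDen W x ≠ 0 ∧
      L v (dblDen W x) = L v x + L v x := by
  have hx1 : v x ≤ 1 := (C1b.val_x_le_one_of_nsmul_eq_zero hW hvn h hQ).1
  have hy2 := Y_ne_negY_of_odd_torsion hn h hQ
  have hden := dblDen_ne_zero_of_odd_torsion hn h hQ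
  obtain ⟨x', y', h', hPP, hdbl, -⟩ := add_self_some h hy2
  have hQ' : n • Point.some x' y' h' = 0 := by rw [← hPP, nsmul_add, hQ, add_zero]
  have hx'1 : v x' ≤ 1 := (C1b.val_x_le_one_of_nsmul_eq_zero hW hvn h' hQ').1
  have hden' := dblDen_ne_zero_of_odd_torsion hn h' hQ'
  have e_den := N.dblDen_eq x
  have e_den' := N.dblDen_eq x'
  have h4 := N.four_ne_zero
  have hb20 := N.b₂_ne_zero
  have hx0 : x ≠ 0 := by
    intro h0; apply hden; rw [e_den, h0]; ring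
  have hq0 : 4 * x ^ 2 + W.b₂ * x + 4 * W.a₄ ≠ 0 := by
    intro h0; apply hden; rw [e_den, h0]; ring
  have hx'0 : x' ≠ 0 := by
    intro h0; apply hden'; rw [e_den', h0]; ring
  have key : x' * dblDen W x = (x ^ 2 - W.a₄) ^ 2 := by
    rw [← N.dblNum_eq, ← hdbl]
  have hE0 : x ^ 2 - W.a₄ ≠ 0 := by
    intro h0
    rw [h0] at key
    have : x' * dblDen W x ≠ 0 := mul_ne_zero hx'0 hden
    exact this (by rw [key]; ring)
  have La' : L v x' ≤ 0 := (L_nonpos_iff hx'0).mpr hx'1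
  have La : L v x ≤ 0 := (L_nonpos_iff hx0).mpr hx1
  have Lℓ : L v W.a₄ < 0 := (L_neg_iff N.ha4).mpr N.hv4
  have Lb2 : L v W.b₂ = 0 := (L_eq_zero_iff hb20).mpr N.hb2
  have L4 : L v (4 : K) ≤ 0 := (L_nonpos_iff h4).mpr (FG.v_ofNat_le_one v 4)
  have Lden : L v (dblDen W x) = L v x + L v (4 * x ^ 2 + W.b₂ * x + 4 * W.a₄) := by
    rw [e_den, L_mul hx0 hq0]
  have hkey : L v x' + (L v x + L v (4 * x ^ 2 + W.b₂ * x + 4 * W.a₄)) =
      L v (x ^ 2 - W.a₄) + L v (x ^ 2 - W.a₄) := by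
    have := congrArg (L v) key
    rwa [L_mul hx'0 hden, Lden, L_pow hE0, two_nsmul] at this
  have Lsq : L v (x ^ 2) = L v x + L v x := by
    rw [L_pow hx0, two_nsmul]
  -- the three terms of `q`
  have Lt1 : L v (4 * x ^ 2) = L v (4 : K) + (L v x + L v x) := by
    rw [L_mul h4 (pow_ne_zero 2 hx0), Lsq]
  have Lt2 : L v (W.b₂ * x) = L v x := by
    rw [L_mul hb20 hx0, Lb2, zero_add]
  have Lt3 : L v (4 * W.a₄) = L v (4 : K) + L v W.a₄ := L_mul h4 N.ha4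
  have ht1 : 4 * x ^ 2 ≠ 0 := mul_ne_zero h4 (pow_ne_zero 2 hx0)
  have ht2 : W.b₂ * x ≠ 0 := mul_ne_zero hb20 hx0
  have ht3 : 4 * W.a₄ ≠ 0 := mul_ne_zero h4 N.ha4
  have h3 : L v (x ^ 2 - W.a₄) ≤ max (L v (x ^ 2)) (L v W.a₄) :=
    L_sub_le (pow_ne_zero 2 hx0) N.ha4 hE0
  have h3' : L v (x ^ 2) ≠ L v W.a₄ → L v (x ^ 2 - W.a₄) = max (L v (x ^ 2)) (L v W.a₄) :=
    L_sub_eq (pow_ne_zero 2 hx0) N.ha4
  rw [Lsq] at h3 h3'
  -- ultrametric facts for `q = (t1 + t2) + t3`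
  have F1' : L v (4 * x ^ 2) ≠ L v (W.b₂ * x) →
      L v (4 * x ^ 2 + W.b₂ * x) = max (L v (4 * x ^ 2)) (L v (W.b₂ * x)) :=
    L_add_eq ht1 ht2
  have F1n : L v (4 * x ^ 2) ≠ L v (W.b₂ * x) → 4 * x ^ 2 + W.b₂ * x ≠ 0 :=
    add_ne_zero_of_L_ne
  have F1 : 4 * x ^ 2 + W.b₂ * x ≠ 0 →
      L v (4 * x ^ 2 + W.b₂ * x) ≤ max (L v (4 * x ^ 2)) (L v (W.b₂ * x)) :=
    L_add_le ht1 ht2
  have F2 : 4 * x ^ 2 + W.b₂ * x ≠ 0 →
      L v (4 * x ^ 2 + W.b₂ * x + 4 * W.a₄) ≤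
        max (L v (4 * x ^ 2 + W.b₂ * x)) (L v (4 * W.a₄)) :=
    fun h0 => L_add_le h0 ht3 hq0
  have F2' : 4 * x ^ 2 + W.b₂ * x ≠ 0 → L v (4 * x ^ 2 + W.b₂ * x) ≠ L v (4 * W.a₄) →
      L v (4 * x ^ 2 + W.b₂ * x + 4 * W.a₄) =
        max (L v (4 * x ^ 2 + W.b₂ * x)) (L v (4 * W.a₄)) :=
    fun h0 => L_add_eq h0 ht3
  have F2z : 4 * x ^ 2 + W.b₂ * x = 0 →
      L v (4 * x ^ 2 + W.b₂ * x + 4 * W.a₄) = L v (4 * W.a₄) := by
    intro h0; rw [h0, zero_add]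
  rw [Lt1, Lt2] at F1 F1' F1n
  rw [Lt3] at F2 F2' F2z
  have goal : L v W.a₄ ≤ L v x ∧ L v (4 * x ^ 2 + W.b₂ * x + 4 * W.a₄) = L v x := by
    by_cases hz : 4 * x ^ 2 + W.b₂ * x = 0
    · have f2 := F2z hz
      have f1 : ¬ (L v (4 : K) + (L v x + L v x) ≠ L v x) := fun hne => F1n hne hz
      grind
    · have f1 := F1 hz
      have f2 := F2 hz
      have f2' := F2' hz
      grind
  refine ⟨hx0, goal.1, La, hden, ?_⟩
  rw [Lden, goal.2]

/-- **Duplication law**. -/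
theorem dupLaw (hW : SameRed.IntegralCoeffs W v) (N : NodeZero W v) {n : ℕ}
    (hn : Odd n) (hvn : v (n : K) = 1) {x y : K} (h : W.Nonsingular x y)
    (hQ : n • Point.some x y h = 0) :
    ∃ (x' y' : K) (h' : W.Nonsingular x' y'),
      Point.some x y h + Point.some x y h = Point.some x' y' h' ∧
      (L v x' = L v x + L v x ∨ L v x' + L v x + L v x = L v W.a₄ + L v W.a₄) := by
  have hy2 := Y_ne_negY_of_odd_torsion hn h hQ
  obtain ⟨x', y', h', hPP, hdbl, -⟩ := add_self_some h hy2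
  have hQ' : n • Point.some x' y' h' = 0 := by rw [← hPP, nsmul_add, hQ, add_zero]
  obtain ⟨hξ, c1, c2, hden, c3⟩ := classC hW N hn hvn h hQ
  obtain ⟨hξ', c1', c2', hden', c3'⟩ := classC hW N hn hvn h' hQ'
  refine ⟨x', y', h', hPP, ?_⟩
  have key : x' * dblDen W x = (x ^ 2 - W.a₄) ^ 2 := by
    rw [← N.dblNum_eq, ← hdbl]
  have hE0 : x ^ 2 - W.a₄ ≠ 0 := by
    intro h0
    rw [h0] at key
    have : x' * dblDen W x ≠ 0 := mul_ne_zero hξ' hden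
    exact this (by rw [key]; ring)
  have Lℓ : L v W.a₄ < 0 := (L_neg_iff N.ha4).mpr N.hv4
  have hkey : L v x' + (L v x + L v x) = L v (x ^ 2 - W.a₄) + L v (x ^ 2 - W.a₄) := by
    have := congrArg (L v) key
    rwa [L_mul hξ' hden, c3, L_pow hE0, two_nsmul] at this
  have Lsq : L v (x ^ 2) = L v x + L v x := by
    rw [L_pow hξ, two_nsmul]
  have h3 : L v (x ^ 2 - W.a₄) ≤ max (L v (x ^ 2)) (L v W.a₄) :=
    L_sub_le (pow_ne_zero 2 hξ) N.ha4 hE0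
  have h3' : L v (x ^ 2) ≠ L v W.a₄ → L v (x ^ 2 - W.a₄) = max (L v (x ^ 2)) (L v W.a₄) :=
    L_sub_eq (pow_ne_zero 2 hξ) N.ha4
  rw [Lsq] at h3 h3'
  grind

/-- **Pair law** (unsigned). -/
theorem pairLaw (hW : SameRed.IntegralCoeffs W v) (N : NodeZero W v) {n : ℕ}
    (hn : Odd n) (hvn : v (n : K) = 1) {x₁ y₁ x₂ y₂ : K} (h₁ : W.Nonsingular x₁ y₁)
    (h₂ : W.Nonsingular x₂ y₂) (hQ₁ : n • Point.some x₁ y₁ h₁ = 0)
    (hQ₂ : n • Point.some x₂ y₂ h₂ = 0) (hx : x₁ ≠ x₂) :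
    ∃ (x₃ y₃ x₄ y₄ : K) (h₃ : W.Nonsingular x₃ y₃) (h₄ : W.Nonsingular x₄ y₄),
      Point.some x₁ y₁ h₁ + Point.some x₂ y₂ h₂ = Point.some x₃ y₃ h₃ ∧
      Point.some x₁ y₁ h₁ - Point.some x₂ y₂ h₂ = Point.some x₄ y₄ h₄ ∧
      (((L v x₃ = L v x₁ + L v x₂ ∨ L v x₃ + L v x₁ + L v x₂ = L v W.a₄ + L v W.a₄) ∧
        (L v x₄ = L v x₁ - L v x₂ ∨ L v x₄ = L v x₂ - L v x₁)) ∨
       ((L v x₄ = L v x₁ + L v x₂ ∨ L v x₄ + L v x₁ + L v x₂ = L v W.a₄ + L v W.a₄) ∧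
        (L v x₃ = L v x₁ - L v x₂ ∨ L v x₃ = L v x₂ - L v x₁))) := by
  obtain ⟨x₃, y₃, x₄, y₄, h₃, h₄, hadd, hsub, hsum, hprod⟩ := add_sub_some h₁ h₂ hx
  have hQ₃ : n • Point.some x₃ y₃ h₃ = 0 := by rw [← hadd, nsmul_add, hQ₁, hQ₂, add_zero]
  have hQ₄ : n • Point.some x₄ y₄ h₄ = 0 := by rw [← hsub, nsmul_sub, hQ₁, hQ₂, sub_zero]
  obtain ⟨hξ₁, a1, b1, hden₁, d1⟩ := classC hW N hn hvn h₁ hQ₁
  obtain ⟨hξ₂, a2, b2, hden₂, d2⟩ := classC hW N hn hvn h₂ hQ₂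
  obtain ⟨hξ₃, a3, b3, hden₃, d3⟩ := classC hW N hn hvn h₃ hQ₃
  obtain ⟨hξ₄, a4, b4, hden₄, d4⟩ := classC hW N hn hvn h₄ hQ₄
  refine ⟨x₃, y₃, x₄, y₄, h₃, h₄, hadd, hsub, ?_⟩
  have hD0 : x₁ - x₂ ≠ 0 := sub_ne_zero.mpr hx
  have hPi : (x₁ - x₂) ^ 2 * (x₃ * x₄) = (x₁ * x₂ - W.a₄) ^ 2 := by
    rw [← N.prodNum_eq, ← hprod]
  have hDel : (x₁ - x₂) ^ 4 * (x₃ - x₄) ^ 2 = dblDen W x₁ * dblDen W x₂ := by
    rw [← N.delta_eq, ← hsum, ← hprod]; ring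
  have hE0 : x₁ * x₂ - W.a₄ ≠ 0 := by
    intro h0
    rw [h0] at hPi
    have : (x₁ - x₂) ^ 2 * (x₃ * x₄) ≠ 0 :=
      mul_ne_zero (pow_ne_zero 2 hD0) (mul_ne_zero hξ₃ hξ₄)
    exact this (by rw [hPi]; ring)
  have hs0 : x₃ - x₄ ≠ 0 := by
    intro h0
    rw [h0] at hDel
    have : dblDen W x₁ * dblDen W x₂ ≠ 0 := mul_ne_zero hden₁ hden₂
    exact this (by rw [← hDel]; ring)
  have Lℓ : L v W.a₄ < 0 := (L_neg_iff N.ha4).mpr N.hv4
  have LPi : (L v (x₁ - x₂) + L v (x₁ - x₂)) + (L v x₃ + L v x₄) =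
      L v (x₁ * x₂ - W.a₄) + L v (x₁ * x₂ - W.a₄) := by
    have := congrArg (L v) hPi
    rwa [L_mul (pow_ne_zero 2 hD0) (mul_ne_zero hξ₃ hξ₄), L_pow hD0, L_mul hξ₃ hξ₄,
      L_pow hE0, two_nsmul, two_nsmul] at this
  have LDel : (L v (x₁ - x₂) + L v (x₁ - x₂) + L v (x₁ - x₂) + L v (x₁ - x₂)) +
      (L v (x₃ - x₄) + L v (x₃ - x₄)) = (L v x₁ + L v x₁) + (L v x₂ + L v x₂) := by
    have := congrArg (L v) hDel
    rw [L_mul (pow_ne_zero 4 hD0) (pow_ne_zero 2 hs0), L_pow hD0, L_pow hs0,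
      L_mul hden₁ hden₂, d1, d2, two_nsmul] at this
    rw [← this]
    simp only [succ_nsmul, zero_nsmul, zero_add]
  have hD : L v (x₁ - x₂) ≤ max (L v x₁) (L v x₂) := L_sub_le hξ₁ hξ₂ hD0
  have hD' : L v x₁ ≠ L v x₂ → L v (x₁ - x₂) = max (L v x₁) (L v x₂) := L_sub_eq hξ₁ hξ₂
  have hs : L v (x₃ - x₄) ≤ max (L v x₃) (L v x₄) := L_sub_le hξ₃ hξ₄ hs0
  have hs' : L v x₃ ≠ L v x₄ → L v (x₃ - x₄) = max (L v x₃) (L v x₄) := L_sub_eq hξ₃ hξ₄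
  have L12 : L v (x₁ * x₂) = L v x₁ + L v x₂ := L_mul hξ₁ hξ₂
  have hE : L v (x₁ * x₂ - W.a₄) ≤ max (L v (x₁ * x₂)) (L v W.a₄) :=
    L_sub_le (mul_ne_zero hξ₁ hξ₂) N.ha4 hE0
  have hE' : L v (x₁ * x₂) ≠ L v W.a₄ →
      L v (x₁ * x₂ - W.a₄) = max (L v (x₁ * x₂)) (L v W.a₄) :=
    L_sub_eq (mul_ne_zero hξ₁ hξ₂) N.ha4
  rw [L12] at hE hE'
  grind

/-- The class of `log v (x(Q))` modulo `2 log v a₄` (and `0` for `Q = 0`). -/
noncomputable def Hc (v : Valuation K Γ₀) (W : Affine K) :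
    W.Point → (Additive Γ₀ˣ ⧸ Zsub v W.a₄)
  | .zero => 0
  | .some x _ _ => QuotientAddGroup.mk (L v x)

lemma Hc_zero : Hc v W (0 : W.Point) = 0 := rfl

lemma Hc_some {x y : K} (h : W.Nonsingular x y) :
    Hc v W (Point.some x y h) = QuotientAddGroup.mk (L v x) := rfl

lemma Hc_neg (Q : W.Point) : Hc v W (-Q) = Hc v W Q := by
  rcases Q with _ | ⟨x, y, h⟩
  · rfl
  · rw [Point.neg_some]; rfl

/-- The unsigned pair law in the quotient group, including all degenerate cases. -/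
theorem pairLaw_quot (hW : SameRed.IntegralCoeffs W v) (N : NodeZero W v) {n : ℕ}
    (hn : Odd n) (hvn : v (n : K) = 1) (Q P : W.Point) (hQ : n • Q = 0) (hP : n • P = 0) :
    (Sim (Hc v W (Q + P)) (Hc v W Q + Hc v W P) ∧
      Sim (Hc v W (Q - P)) (Hc v W Q - Hc v W P)) ∨
    (Sim (Hc v W (Q + P)) (Hc v W Q - Hc v W P) ∧
      Sim (Hc v W (Q - P)) (Hc v W Q + Hc v W P)) := by
  rcases P with _ | ⟨x₂, y₂, h₂⟩
  · left
    have e0 : (Point.zero : W.Point) = 0 := rfl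
    rw [e0, add_zero, sub_zero, Hc_zero, add_zero, sub_zero]
    exact ⟨Sim.rfl' _, Sim.rfl' _⟩
  rcases Q with _ | ⟨x₁, y₁, h₁⟩
  · left
    have e0 : (Point.zero : W.Point) = 0 := rfl
    rw [e0, zero_add, zero_sub, Hc_zero, zero_add, zero_sub, Hc_neg]
    exact ⟨Sim.rfl' _, (Sim.rfl' _).neg_right⟩
  by_cases hx : x₁ = x₂
  · subst hx
    have hc : Hc v W (Point.some x₁ y₁ h₁) = Hc v W (Point.some x₁ y₂ h₂) := rfl
    obtain ⟨x', y', h', hPP, hlaw⟩ := dupLaw hW N hn hvn h₂ hP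
    have hdup : Sim (Hc v W (Point.some x₁ y₂ h₂ + Point.some x₁ y₂ h₂))
        (Hc v W (Point.some x₁ y₂ h₂) + Hc v W (Point.some x₁ y₂ h₂)) := by
      rw [hPP, Hc_some, Hc_some]
      exact sim_of_eq_add hlaw
    by_cases hy : y₁ = y₂
    · subst hy
      left
      refine ⟨hdup, ?_⟩
      rw [sub_self, sub_self, Hc_zero]
      exact Sim.rfl' _
    · have hy' : y₁ = W.negY x₁ y₂ := (Y_eq_of_X_eq h₁.1 h₂.1 rfl).resolve_left hy
      have hQneg : Point.some x₁ y₁ h₁ = -Point.some x₁ y₂ h₂ := by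
        rw [Point.neg_some]
        congr 1
      right
      rw [hc]
      refine ⟨?_, ?_⟩
      · rw [hQneg, neg_add_cancel, sub_self, Hc_zero]
        exact Sim.rfl' _
      · have : Point.some x₁ y₁ h₁ - Point.some x₁ y₂ h₂ =
            -(Point.some x₁ y₂ h₂ + Point.some x₁ y₂ h₂) := by
          rw [hQneg]; abel
        rw [this, Hc_neg]
        exact hdup
  · obtain ⟨x₃, y₃, x₄, y₄, h₃, h₄, hadd, hsub, hlaw⟩ := pairLaw hW N hn hvn h₁ h₂ hQ hP hx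
    rw [hadd, hsub, Hc_some, Hc_some, Hc_some, Hc_some]
    rcases hlaw with ⟨a, b⟩ | ⟨a, b⟩
    · exact Or.inl ⟨sim_of_eq_add a, sim_of_eq_sub b⟩
    · exact Or.inr ⟨sim_of_eq_sub b, sim_of_eq_add a⟩

/-- `n • P = 0` forces `n • log v x ∈ ℤ • 2 log v a₄`. -/
theorem exists_zsmul_eq (hW : SameRed.IntegralCoeffs W v) (N : NodeZero W v) {n : ℕ}
    (hn : Odd n) (hvn : v (n : K) = 1) {x y : K} (h : W.Nonsingular x y)
    (hP : n • Point.some x y h = 0) :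
    ∃ j : ℤ, j • (L v W.a₄ + L v W.a₄) = n • L v x := by
  have hk : ∀ k : ℕ, n • (k • Point.some x y h) = 0 := fun k => by
    rw [smul_comm, hP, smul_zero]
  have key := sim_nsmul_of_pairLaw (fun k => Hc v W (k • Point.some x y h))
    (Hc v W (Point.some x y h)) (by simp [Hc_zero]) (by simp) (fun k => by
      have e2 : (k + 2) • Point.some x y h = (k + 1) • Point.some x y h + Point.some x y h :=
        succ_nsmul _ (k + 1)
      have e0 : k • Point.some x y h = (k + 1) • Point.some x y h - Point.some x y h := by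
        rw [succ_nsmul]; abel
      have := pairLaw_quot hW N hn hvn ((k + 1) • Point.some x y h) (Point.some x y h)
        (hk (k + 1)) hP
      rw [← e2, ← e0] at this
      exact this) n
  have h0 := key.1
  simp only [hP, Hc_zero] at h0
  have h1 : n • Hc v W (Point.some x y h) = 0 := sim_zero_iff.mp h0
  rw [Hc_some, ← QuotientAddGroup.mk_nsmul, QuotientAddGroup.eq_zero_iff] at h1
  exact AddSubgroup.mem_zmultiples_iff.mp h1

/-- **T2(b), torsion law at a node at the origin, any residue characteristic.** -/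
theorem node_torsion_valuation (hW : SameRed.IntegralCoeffs W v) (N : NodeZero W v) {n : ℕ}
    (hn : Odd n) (hvn : v (n : K) = 1) {x y : K} (h : W.Nonsingular x y)
    (hP : n • Point.some x y h = 0) (hx : v x < 1) :
    v W.a₄ < v x ∧ ∃ j : ℕ, v x ^ n = v W.a₄ ^ (2 * j) := by
  obtain ⟨hξ, c1, -, -, -⟩ := classC hW N hn hvn h hP
  have hc : L v x < 0 := (L_neg_iff hξ).mpr hx
  have hℓ : L v W.a₄ < 0 := (L_neg_iff N.ha4).mpr N.hv4
  have hℓ2 : L v W.a₄ + L v W.a₄ < 0 := add_neg hℓ hℓ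
  have hn0 : n ≠ 0 := hn.pos.ne'
  obtain ⟨j, hj⟩ := exists_zsmul_eq hW N hn hvn h hP
  have hnc : n • L v x < 0 := nsmul_neg hc hn0
  obtain ⟨m, hm⟩ := exists_nat_of_zsmul_eq hnc hℓ2 hj
  have hm' : (2 * m) • L v W.a₄ = n • L v x := by
    rw [← hm, nsmul_add, ← add_nsmul]
    congr 1
    ring
  refine ⟨?_, m, ?_⟩
  · rw [← L_lt_iff N.ha4 hξ]
    refine lt_of_le_of_ne c1 ?_
    intro heq
    rw [← heq] at hm'
    have := nsmul_left_injective_of_neg hℓ hm'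
    rw [← this] at hn
    exact (Nat.not_odd_iff_even.mpr (even_two_mul m)) hn
  · have : L v (x ^ n) = L v (W.a₄ ^ (2 * m)) := by
      rw [L_pow hξ, L_pow N.ha4, hm']
    have := (L_eq_iff (pow_ne_zero n hξ) (pow_ne_zero (2 * m) N.ha4)).mp this
    rwa [map_pow, map_pow] at this

end torsion

end Fermat.Agent.S13.H845
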