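import Fermat.Agent.S13.H11.T7
import Fermat.Agent.S13.H845.NodeZero
import Fermat.Agent.S54.FrobLift
import Fermat.Prelude.Def_FLTPrelim_GaloisRep

/-!
# S13 / T7 (helper845): the Frey curve has no nonzero Galois-fixed point of order `p`

Wiring: helper11's `H11` (T7 modulo the node law, over `ℚ`, for a valuation `w` with `w 2 < 1`)
+ the node law `node_torsion_valuation` of `H845/NodeZero` (any residue characteristic)
+ Galois descent (`ℚ̄^{G_ℚ} = ℚ`).
-/

set_option autoImplicit false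

namespace Fermat.Agent.S13.H845

open WeierstrassCurve WeierstrassCurve.Affine WeierstrassCurve.Affine.Point
open Fermat.Agent.S05 Fermat.Agent.S13.H11

variable {Γ₀ : Type*} [LinearOrderedCommGroupWithZero Γ₀]
variable (P : FreyPackage)

lemma frey_p_odd : Odd P.p := P.pp.odd_of_ne_two (by have := P.hp5; omega)

section rat

variable {w : Valuation ℚ Γ₀}

lemma freyQ_val_b₂ (h2 : w (2 : ℚ) < 1) : w (P.freyCurve⁄ℚ).b₂ = 1 := by
  obtain ⟨z, hz⟩ := frey_a₂_eq P
  have hb : (P.freyCurve⁄ℚ).b₂ = 1 + ((2 * (2 * z) : ℤ) : ℚ) := by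
    rw [WeierstrassCurve.b₂, freyQ_a₁, freyQ_a₂, hz]
    push_cast
    ring
  have hlt : w (((2 * (2 * z) : ℤ) : ℚ)) < w (1 : ℚ) := by
    rw [map_one]
    exact val_even_lt_one h2 (even_two_mul _)
  rw [hb, w.map_add_eq_of_lt_left hlt, map_one]

lemma freyQ_nodeZero (h2 : w (2 : ℚ) < 1) : NodeZero (P.freyCurve⁄ℚ) w where
  h20 := by norm_num
  ha3 := freyQ_a₃ P
  ha6 := freyQ_a₆ P
  ha4 := by rw [freyQ_a₄]; exact frey_a₄_ne_zero P
  hv4 := by rw [freyQ_a₄]; exact freyQ_val_a₄_lt_one P h2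
  hb2 := freyQ_val_b₂ P h2

variable [DecidableEq ℚ]

/-- The node law for the Frey curve over `ℚ`, for any valuation with `w 2 < 1`. -/
theorem freyQ_nodeLaw (h2 : w (2 : ℚ) < 1) : NodeLaw w (P.freyCurve⁄ℚ) P.p := by
  intro x y h hQ hx
  have hwp : w ((P.p : ℕ) : ℚ) = 1 := by
    have := val_odd_eq_one h2 (n := (P.p : ℤ)) (by exact_mod_cast frey_p_odd P)
    exact_mod_cast this
  obtain ⟨h1, j, hj⟩ := node_torsion_valuation (freyQ_integral P h2) (freyQ_nodeZero P h2)
    (frey_p_odd P) hwp h hQ hx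
  refine ⟨h1, (j : ℤ), ?_⟩
  rw [hj, zpow_natCast, pow_mul]

end rat

/-- The Frey curve has no nonzero rational point killed by `p`. -/
theorem frey_no_rational_torsion [DecidableEq ℚ] (Q : (P.freyCurve⁄ℚ).Point)
    (hQ : P.p • Q = 0) : Q = 0 := by
  have : Fact (Nat.Prime 2) := ⟨Nat.prime_two⟩
  have h2 : Rat.padicValuation 2 (2 : ℚ) < 1 := by
    have h := Rat.padicValuation_self (p := 2)
    have h' : Rat.padicValuation 2 (2 : ℚ) = WithZero.exp (-1 : ℤ) := by exact_mod_cast h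
    rw [h', ← WithZero.exp_zero, WithZero.exp_lt_exp]
    norm_num
  exact no_rational_point_of_order_p_of_nodeLaw_rat P h2 (freyQ_nodeLaw P h2) Q hQ

/-! ### Galois descent -/

/-- An element of `ℚ̄` fixed by the whole Galois group is rational. -/
lemma exists_rat_of_galois_fixed (z : AlgebraicClosure ℚ)
    (hz : ∀ σ : (AlgebraicClosure ℚ) ≃ₐ[ℚ] (AlgebraicClosure ℚ), σ z = z) :
    ∃ r : ℚ, algebraMap ℚ (AlgebraicClosure ℚ) r = z := by
  have := Fermat.Agent.S54.isGalois_algebraicClosure_rat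
  exact (InfiniteGalois.mem_range_algebraMap_iff_fixed (k := ℚ) (K := AlgebraicClosure ℚ) z).mpr hz

/-- **T7** in the frozen shape of `Skel.result_of_parts`. -/
theorem T7 (x : Submodule.torsionBy ℤ (P.freyCurve⁄(AlgebraicClosure ℚ)).Point P.p)
    (hx : ∀ σ : (AlgebraicClosure ℚ) ≃ₐ[ℚ] (AlgebraicClosure ℚ), σ • x = x) : x = 0 := by
  have hfix : ∀ σ : (AlgebraicClosure ℚ) ≃ₐ[ℚ] (AlgebraicClosure ℚ),
      σ • (x : (P.freyCurve⁄(AlgebraicClosure ℚ)).Point) = x := fun σ =>
    congrArg Subtype.val (hx σ)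
  have hx0 : (P.p : ℤ) • (x : (P.freyCurve⁄(AlgebraicClosure ℚ)).Point) = 0 :=
    (Submodule.mem_torsionBy_iff _ _).mp x.2
  apply Subtype.ext
  show (x : (P.freyCurve⁄(AlgebraicClosure ℚ)).Point) = 0
  generalize (x : (P.freyCurve⁄(AlgebraicClosure ℚ)).Point) = Q at hfix hx0
  cases Q with
  | zero => rfl
  | some x y hxy =>
    exfalso
    have hsm : ∀ σ : (AlgebraicClosure ℚ) ≃ₐ[ℚ] (AlgebraicClosure ℚ),
        σ • (Point.some x y hxy : (P.freyCurve⁄(AlgebraicClosure ℚ)).Point) =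
          Point.some (σ x) (σ y)
            ((Affine.baseChange_nonsingular P.freyCurve (f := σ.toAlgHom) σ.injective x y).mpr
              hxy) := fun _ => rfl
    have hx' : ∀ σ : (AlgebraicClosure ℚ) ≃ₐ[ℚ] (AlgebraicClosure ℚ), σ x = x := fun σ => by
      have := hfix σ
      rw [hsm] at this
      exact (Point.some.inj this).1
    have hy' : ∀ σ : (AlgebraicClosure ℚ) ≃ₐ[ℚ] (AlgebraicClosure ℚ), σ y = y := fun σ => by
      have := hfix σ
      rw [hsm] at this
      exact (Point.some.inj this).2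
    obtain ⟨x0, rfl⟩ := exists_rat_of_galois_fixed x hx'
    obtain ⟨y0, rfl⟩ := exists_rat_of_galois_fixed y hy'
    have h0 : (P.freyCurve⁄ℚ).Nonsingular x0 y0 :=
      (Affine.baseChange_nonsingular P.freyCurve (f := Algebra.ofId ℚ (AlgebraicClosure ℚ))
        (Algebra.ofId ℚ (AlgebraicClosure ℚ)).injective x0 y0).mp hxy
    have hmap : Point.map (W' := P.freyCurve) (Algebra.ofId ℚ (AlgebraicClosure ℚ))
        (Point.some x0 y0 h0) = Point.some _ _ hxy := rfl
    have h1 : Point.map (W' := P.freyCurve) (Algebra.ofId ℚ (AlgebraicClosure ℚ))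
        ((P.p : ℤ) • Point.some x0 y0 h0) = 0 := by
      rw [map_zsmul, hmap, hx0]
    have h2 : (P.p : ℤ) • Point.some x0 y0 h0 = 0 :=
      Point.map_injective (W' := P.freyCurve) (Algebra.ofId ℚ (AlgebraicClosure ℚ))
        (by rw [h1]; rfl)
    have h3 : P.p • Point.some x0 y0 h0 = 0 := by
      rw [← natCast_zsmul]; exact h2
    have := frey_no_rational_torsion P _ h3
    exact Point.some_ne_zero _ this

end Fermat.Agent.S13.H845
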